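import Mathlib.Algebra.BigOperators.Fin
import Mathlib.Algebra.Order.Ring.Pow
import Mathlib.Data.Finset.Sym
import Mathlib.Data.Real.Basic
import Mathlib.Data.Sym.Card
import Mathlib.NumberTheory.SumFourSquares
import Mathlib.Tactic.IntervalCases
import Mathlib.Tactic.Linarith
import Mathlib.Tactic.Positivity
import Mathlib.Tactic.Ring

/-!
# Elementary bounds in Waring's problem
-/

set_option autoImplicit false

open Finset

namespace FA.WaringBounds

/-- `n` is a sum of `s` many `k`th powers. -/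
def IsPowerSum (s k n : ℕ) : Prop := ∃ x : Fin s → ℕ, ∑ i, x i ^ k = n

/-- Small bases: only `0`, `1`, `2` occur. -/
theorem exists_counts {s k n : ℕ} (hk : 0 < k) (hn : n < 3 ^ k) (h : IsPowerSum s k n) :
    ∃ a b, a + b ≤ s ∧ a * 2 ^ k + b = n := by
  obtain ⟨x, hx⟩ := h
  have hx2 : ∀ i, x i ≤ 2 := fun i => by
    by_contra hi
    have h1 := Nat.pow_le_pow_left (show 3 ≤ x i by omega) k
    have h2 := single_le_sum (f := fun i => x i ^ k) (fun j _ => Nat.zero_le _) (mem_univ i)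
    simp only [hx] at h2
    omega
  refine ⟨#(univ.filter fun i => x i = 2), #(univ.filter fun i => x i = 1), ?_, ?_⟩
  · rw [← card_union_of_disjoint (disjoint_filter.2 fun i _ h1 h2 => by omega)]
    exact (card_le_univ _).trans_eq (Fintype.card_fin s)
  · rw [← hx, card_filter, card_filter, sum_mul, ← sum_add_distrib]
    refine sum_congr rfl fun i _ => ?_
    have := hx2 i
    interval_cases x i <;> simp [zero_pow hk.ne']

/-- J. A. Euler. -/
theorem euler_bound {k : ℕ} (hk : 0 < k) (g : ℕ) (h : ∀ n, IsPowerSum g k n) :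
    2 ^ k + 3 ^ k / 2 ^ k - 2 ≤ g := by
  set q := 3 ^ k / 2 ^ k with hq
  have h2 : 1 ≤ 2 ^ k := Nat.one_le_two_pow
  have hq1 : 1 ≤ q := (Nat.le_div_iff_mul_le (by omega)).2 (by
    rw [one_mul]
    exact Nat.pow_le_pow_left (by norm_num) k)
  have hle : q * 2 ^ k ≤ 3 ^ k := Nat.div_mul_le_self _ _
  have hpos : 1 ≤ q * 2 ^ k := Nat.mul_pos hq1 h2
  obtain ⟨a, b, hab, he⟩ := exists_counts hk (show q * 2 ^ k - 1 < 3 ^ k by omega) (h _)
  have ha : a + 1 ≤ q := by
    by_contra hc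
    have := Nat.mul_le_mul_right (2 ^ k) (show q ≤ a by omega)
    omega
  have h3 : (a + 1) * (2 ^ k - 1) ≤ q * (2 ^ k - 1) := Nat.mul_le_mul_right _ ha
  have e : ∀ z, z * (2 ^ k - 1) + z = z * 2 ^ k := fun z => by
    rw [← Nat.mul_add_one, Nat.sub_add_cancel h2]
  have := e (a + 1)
  have := e q
  rw [add_mul a 1 (2 ^ k), one_mul] at *
  omega

/-- Maillet and Hurwitz. -/
theorem infinite_not_sum {k : ℕ} (hk : 2 ≤ k) : {n | ¬IsPowerSum k k n}.Infinite := by
  intro hfin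
  obtain ⟨M, hM⟩ := hfin.bddAbove
  set P := 4 * k ^ 2 + 3 * M + 1 with hP
  have hsub : Ioc M (P ^ k) ⊆ (univ : Finset (Sym (Fin (P + 1)) k)).image
      fun σ : Sym (Fin (P + 1)) k =>
      (Multiset.map (fun i : Fin (P + 1) => (i : ℕ) ^ k) (σ : Multiset (Fin (P + 1)))).sum := by
    intro n hn
    rw [mem_Ioc] at hn
    obtain ⟨x, hx⟩ : IsPowerSum k k n := by
      by_contra hc
      have := hM hc
      omega
    have hxP : ∀ i, x i < P + 1 := fun i => by
      by_contra hi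
      have h1 := Nat.pow_lt_pow_left (show P < x i by omega) (show k ≠ 0 by omega)
      have h2 := single_le_sum (f := fun i => x i ^ k) (fun j _ => Nat.zero_le _) (mem_univ i)
      simp only [hx] at h2
      omega
    refine mem_image.2 ⟨⟨(univ : Finset (Fin k)).val.map fun i => (⟨x i, hxP i⟩ : Fin (P + 1)),
      by simp⟩, mem_univ _, ?_⟩
    rw [← hx]
    simp [Function.comp_def, Finset.sum]
  have hcard := (card_le_card hsub).trans card_image_le
  rw [Nat.card_Ioc, card_univ, Sym.card_sym_eq_choose, Fintype.card_fin] at hcard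
  have hchoose : (P + 1 + k - 1).choose k * k.factorial ≤ (P + k) ^ k := by
    rw [show P + 1 + k - 1 = P + k by omega, mul_comm, ← Nat.descFactorial_eq_factorial_mul_choose]
    exact Nat.descFactorial_le_pow _ _
  have hfac : 2 ≤ k.factorial := (Nat.self_le_factorial k).trans' hk
  set C := (P + 1 + k - 1).choose k
  have hC : 2 * (C : ℝ) ≤ ((P : ℝ) + k) ^ k := by
    have h1 : 2 * C ≤ (P + k) ^ k :=
      le_trans (by rw [mul_comm]; exact Nat.mul_le_mul_left _ hfac) hchoose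
    exact_mod_cast h1
  have hk0 : (2 : ℝ) ≤ k := by exact_mod_cast hk
  have hPk : 4 * (k : ℝ) ^ 2 ≤ P := by exact_mod_cast (by omega : 4 * k ^ 2 ≤ P)
  have hP0 : (0 : ℝ) < (P : ℝ) + k := by positivity
  have hbern := one_add_mul_le_pow
    (show -2 ≤ -(k : ℝ) / ((P : ℝ) + k) by rw [le_div_iff₀ hP0]; nlinarith) k
  have h34 : (3 / 4 : ℝ) ≤ 1 + (k : ℝ) * (-(k : ℝ) / ((P : ℝ) + k)) := by
    have : (k : ℝ) * ((k : ℝ) / ((P : ℝ) + k)) ≤ 1 / 4 := by
      rw [mul_div_assoc', div_le_iff₀ hP0]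
      nlinarith
    rw [neg_div, mul_neg]
    linarith
  have hmain : 3 / 4 * ((P : ℝ) + k) ^ k ≤ (P : ℝ) ^ k := by
    refine (mul_le_mul_of_nonneg_right (h34.trans hbern) (by positivity)).trans (le_of_eq ?_)
    rw [← mul_pow, neg_div, ← sub_eq_add_neg, sub_mul, div_mul_cancel₀ _ hP0.ne', one_mul,
      add_sub_cancel_right]
  have hpow : P ≤ P ^ k := Nat.le_self_pow (by omega) P
  have hcard' : P ^ k ≤ C + M := by omega
  have h1 : (P : ℝ) ^ k ≤ C + M := by exact_mod_cast hcard'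
  have h2 : (3 * M + 1 : ℝ) ≤ (P : ℝ) ^ k := by exact_mod_cast (by omega : 3 * M + 1 ≤ P ^ k)
  linarith

theorem odd_pow_two_pow {x : ℕ} (hx : x % 2 = 1) (θ : ℕ) (hθ : 1 ≤ θ) :
    x ^ 2 ^ θ % 2 ^ (θ + 2) = 1 := by
  induction θ, hθ using Nat.le_induction with
  | base =>
    rw [pow_one, Nat.pow_mod]
    have := Nat.mod_lt x (show 2 ^ (1 + 2) > 0 by norm_num)
    have h2 : x % 2 ^ (1 + 2) % 2 = 1 := by
      rw [Nat.mod_mod_of_dvd _ (by norm_num)]
      exact hx
    norm_num at this h2 ⊢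
    interval_cases h : x % 8 <;> omega
  | succ θ hθ ih =>
    obtain ⟨c, hc⟩ : ∃ c, x ^ 2 ^ θ = 2 ^ (θ + 2) * c + 1 :=
      ⟨x ^ 2 ^ θ / 2 ^ (θ + 2), by conv_lhs => rw [← Nat.div_add_mod (x ^ 2 ^ θ) (2 ^ (θ + 2)), ih]⟩
    rw [pow_succ, pow_mul, hc, show (2 ^ (θ + 2) * c + 1) ^ 2 =
      1 + 2 ^ (θ + 1 + 2) * (2 ^ (θ + 1) * c ^ 2 + c) by ring, Nat.add_mul_mod_self_left,
      Nat.mod_eq_of_lt (Nat.one_lt_two_pow (by omega))]

theorem add_two_le_two_pow {θ : ℕ} (hθ : 2 ≤ θ) : θ + 2 ≤ 2 ^ θ := by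
  induction θ, hθ using Nat.le_induction with
  | base => norm_num
  | succ j hj ih => rw [pow_succ]; omega

/-- Few summands and a sum divisible by `2 ^ (θ + 2)` force all bases to be even. -/
theorem all_even {θ s n : ℕ} (hθ : 2 ≤ θ) (hs : s < 2 ^ (θ + 2)) (hn : 2 ^ (θ + 2) ∣ n)
    (x : Fin s → ℕ) (h : ∑ i, x i ^ 2 ^ θ = n) (i : Fin s) : x i % 2 = 0 := by
  have hexp := add_two_le_two_pow hθ
  have hmod : ∀ j, x j ^ 2 ^ θ % 2 ^ (θ + 2) = if x j % 2 = 1 then 1 else 0 := fun j => by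
    split_ifs with hj
    · exact odd_pow_two_pow hj θ (by omega)
    · exact Nat.mod_eq_zero_of_dvd ((pow_dvd_pow 2 hexp).trans
        (pow_dvd_pow_of_dvd (Nat.dvd_of_mod_eq_zero (by omega)) _))
  rw [← h, Nat.dvd_iff_mod_eq_zero, sum_nat_mod, sum_congr rfl fun j _ => hmod j, ← card_filter,
    Nat.mod_eq_of_lt (lt_of_le_of_lt ((card_le_univ _).trans_eq (Fintype.card_fin s)) hs),
    card_eq_zero, filter_eq_empty_iff] at hn
  have := hn (mem_univ i)
  omega

theorem not_sum_fifteen (m : ℕ) : ¬IsPowerSum 15 4 (31 * 16 ^ m) := by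
  induction m with
  | zero =>
    intro h
    obtain ⟨a, b, hab, he⟩ := exists_counts (by norm_num) (by norm_num) h
    norm_num at he
    omega
  | succ m ih =>
    rintro ⟨x, hx⟩
    have hev := all_even (θ := 2) le_rfl (show 15 < 2 ^ (2 + 2) by norm_num)
      (Dvd.intro_left (31 * 16 ^ m) (by rw [pow_succ]; norm_num; ring)) x hx
    refine ih ⟨fun i => x i / 2, mul_left_cancel₀ (show (16 : ℕ) ≠ 0 by norm_num) ?_⟩
    rw [mul_sum, show 16 * (31 * 16 ^ m) = 31 * 16 ^ (m + 1) by ring, ← hx]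
    refine sum_congr rfl fun i _ => ?_
    conv_rhs => rw [← Nat.mul_div_cancel' (Nat.dvd_of_mod_eq_zero (hev i))]
    ring

/-- Kempner. -/
theorem infinite_not_sum_two_pow {θ : ℕ} (hθ : 2 ≤ θ) :
    {n | ¬IsPowerSum (2 ^ (θ + 2) - 1) (2 ^ θ) n}.Infinite := by
  rcases eq_or_lt_of_le hθ with rfl | h3
  · refine Set.infinite_of_injective_forall_mem (f := fun m => 31 * 16 ^ m)
      (fun a b h => ?_) fun m => by norm_num; exact not_sum_fifteen m
    exact Nat.pow_right_injective (show 2 ≤ 16 by norm_num) (mul_left_cancel₀ (by norm_num) h)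
  · refine Set.infinite_of_injective_forall_mem (f := fun t => 2 ^ (θ + 2) * (2 * t + 1))
      (fun a b h => ?_) fun t => ?_
    · have := mul_left_cancel₀ (pow_ne_zero _ (by norm_num)) h
      omega
    rintro ⟨x, hx⟩
    have hev := all_even hθ (Nat.sub_lt (by positivity) one_pos) (dvd_mul_right _ _) x hx
    have hexp : θ + 3 ≤ 2 ^ θ := by
      clear x hx hev
      induction θ, h3 using Nat.le_induction with
      | base => norm_num
      | succ j hj ih => rw [pow_succ]; have := ih (by omega); omega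
    have hd : 2 ^ (θ + 2) * 2 ∣ 2 ^ (θ + 2) * (2 * t + 1) := by
      rw [← pow_succ, ← hx]
      exact dvd_sum fun i _ => (pow_dvd_pow 2 hexp).trans
        (pow_dvd_pow_of_dvd (Nat.dvd_of_mod_eq_zero (hev i)) _)
    have := Nat.dvd_of_mul_dvd_mul_left (by positivity) hd
    omega

theorem IsPowerSum.add {s t k m n : ℕ} (h1 : IsPowerSum s k m) (h2 : IsPowerSum t k n) :
    IsPowerSum (s + t) k (m + n) := by
  obtain ⟨x, rfl⟩ := h1
  obtain ⟨y, rfl⟩ := h2
  exact ⟨Fin.append x y, by simp [Fin.sum_univ_add]⟩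

/-- Liouville's identity. -/
theorem six_mul_sq (y : ℕ) : IsPowerSum 12 4 (6 * y ^ 2) := by
  obtain ⟨a, b, c, d, rfl⟩ := Nat.sum_four_squares y
  refine ⟨![a + b, (a - b : ℤ).natAbs, a + c, (a - c : ℤ).natAbs, a + d, (a - d : ℤ).natAbs,
    b + c, (b - c : ℤ).natAbs, b + d, (b - d : ℤ).natAbs, c + d, (c - d : ℤ).natAbs], ?_⟩
  simp only [Fin.sum_univ_succ, Fin.sum_univ_zero, Matrix.cons_val_zero, Matrix.cons_val_succ]
  zify
  simp only [Even.pow_abs (show Even 4 by decide)]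
  ring

theorem liouville (n : ℕ) : IsPowerSum 53 4 n := by
  obtain ⟨y₁, y₂, y₃, y₄, hy⟩ := Nat.sum_four_squares (n / 6)
  have hr : IsPowerSum 5 4 (n % 6) := by
    refine ⟨fun i => if (i : ℕ) < n % 6 then 1 else 0, ?_⟩
    have := Nat.mod_lt n (show 6 > 0 by norm_num)
    simp only [Fin.sum_univ_succ, Fin.sum_univ_zero, Fin.val_succ, Fin.val_zero]
    interval_cases n % 6 <;> rfl
  have h := ((((six_mul_sq y₁).add (six_mul_sq y₂)).add (six_mul_sq y₃)).add (six_mul_sq y₄)).add hr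
  rwa [show 6 * y₁ ^ 2 + 6 * y₂ ^ 2 + 6 * y₃ ^ 2 + 6 * y₄ ^ 2 + n % 6 = n by omega] at h

end FA.WaringBounds
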